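/-
S36lib / Xfer / NormCompatDvd  (helper1)

NORM COMPATIBILITY for the square of modular function fields when `q ∣ N` (`N ∣ N'`, `N' = N r`,
`q ∤ r`):

      α' : FBar N' → FBar (N' q)              β' : FBar N' → FBar (N' q)
      ι₀ ↑            ↑ ι                      ι₀ ↑            ↑ ι
      α  : FBar N  → FBar (N q)               β  : FBar N  → FBar (N q)

`N_{α'} (ι f) = ι₀ (N_α f)` and `N_{β'} (ι f) = ι₀ (N_β f)` for `f ∈ FBar (N q)`.
Proof by the analytic norm formulas `toMer_norm_alpha_dvd` (representatives `(1 0; N j 1)`,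
`j ∈ ℤ/q`) and `toMer_norm_beta` (representatives `(1 j; 0 q)`) at the two levels.  For `α` the
representatives of the two levels correspond under the bijection `j ↦ r j` of `ℤ/q`; for `β` they are
the same matrices.
-/
import Mathlib
import Fermat.Agent.S36lib.H.AlphaNormDvd
import Fermat.Agent.S29lib.H.BetaNorm
import Fermat.Agent.LSc.Xfer.NormCompat

set_option autoImplicit false
set_option linter.style.haveILetI false
set_option linter.unusedSectionVars false

noncomputable section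

namespace Fermat.Agent.S36lib.Xfer

open UpperHalfPlane Matrix.SpecialLinearGroup Fermat.Agent.ProgramR CongruenceSubgroup
  ModularCurve AlgebraicCurve
open Fermat.Agent.ProgramR.BarField Fermat.Agent.S16lib.LH Fermat.Agent.S29lib.H
  Fermat.Agent.S29lib.D Fermat.Agent.S18lib Fermat.Agent.S36lib.H Fermat.Agent.LSc.Xfer
open scoped MatrixGroups

local notation "Qb" => AlgebraicClosure ℚ

variable {N N' q : ℕ} [NeZero N] [NeZero N'] [NeZero q]

/-- `(1 0; N' j 1) = c (1 0; N (r j) 1)` with `c ∈ Γ₀(N q)` when `N' = N r` -/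
theorem exists_lowRep_eq_mul (r : ℕ) (hN' : N' = N * r) (x : ZMod q) :
    ∃ c : SL(2, ℤ), c ∈ Gamma0 (N * q) ∧
      ((lowRep N' x : Gamma0 N') : SL(2, ℤ)) =
        c * ((lowRep N ((r : ZMod q) * x) : Gamma0 N) : SL(2, ℤ)) := by
  have hdvd : (q : ℤ) ∣ (r : ℤ) * (x.val : ℤ) - ((((r : ZMod q) * x).val : ℕ) : ℤ) := by
    rw [← ZMod.intCast_zmod_eq_zero_iff_dvd]
    push_cast
    rw [ZMod.natCast_zmod_val, ZMod.natCast_zmod_val, sub_self]
  obtain ⟨t, ht⟩ := hdvd
  refine ⟨lowMat ((N : ℤ) * (q : ℤ) * t), ?_, ?_⟩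
  · rw [Gamma0_mem, lowMat_apply_one_zero]
    push_cast
    rw [← Nat.cast_mul, ZMod.natCast_self, zero_mul]
  · rw [coe_lowRep, coe_lowRep, lowMat_mul]
    congr 1
    subst hN'
    push_cast
    linear_combination (N : ℤ) * ht

variable [Fact q.Prime]

/-- **NORM COMPATIBILITY along `α`, `q ∣ N`** -/
theorem normAlong_alpha_inclL_dvd (h : N ∣ N') (hqN : q ∣ N) (r : ℕ) (hN' : N' = N * r)
    (hr : Nat.Coprime r q) (f : S18lib.FBar (N * q)) :
    normAlong (heckeAlphaBar Qb N' q) (V.inclL (Nat.mul_dvd_mul_right h q) f) =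
      V.inclL h (normAlong (heckeAlphaBar Qb N q) f) := by
  have hqN' : q ∣ N' := hqN.trans h
  set e : Qb →+* ℂ := qbarEmb with he
  apply (ΦBar N' e).injective
  apply (toMer (Gamma0 N')).injective
  rw [toMer_ΦBar_inclL e h]
  have hL := toMer_norm_alpha_dvd e hqN' (V.inclL (Nat.mul_dvd_mul_right h q) f)
  have hR := toMer_norm_alpha_dvd e hqN f
  refine hL.trans (Eq.trans ?_ hR.symm)
  -- the bijection `j ↦ r j`
  have hunit : IsUnit ((r : ZMod q)) := (ZMod.isUnit_iff_coprime r q).2 hr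
  set ρ : ZMod q ≃ ZMod q := hunit.unit.mulLeft with hρ
  refine Fintype.prod_equiv ρ _ _ fun x => ?_
  have hρx : ρ x = (r : ZMod q) * x := rfl
  rw [Transversal.emb_apply, Transversal.emb_apply,
    toMer_ΦBar_inclL e (Nat.mul_dvd_mul_right h q), hρx]
  obtain ⟨c, hc, hcx⟩ := exists_lowRep_eq_mul r hN' x
  have hA' : (lowTransversal hqN').A x =
      (mapGL ℝ c : GL (Fin 2) ℝ) * (lowTransversal hqN).A ((r : ZMod q) * x) := by
    show (mapGL ℝ ((lowRep N' x : Gamma0 N') : SL(2, ℤ)) : GL (Fin 2) ℝ) =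
      (mapGL ℝ c : GL (Fin 2) ℝ) *
        (mapGL ℝ ((lowRep N ((r : ZMod q) * x) : Gamma0 N) : SL(2, ℤ)) : GL (Fin 2) ℝ)
    rw [hcx, map_mul]
  rw [merComp_eq_of_eq _ (det_pos_mul (isIntMat_mapGL c).det_pos
      ((lowTransversal hqN).isInt ((r : ZMod q) * x)).det_pos) hA',
    ← merComp_comp (isIntMat_mapGL c).det_pos
      ((lowTransversal hqN).isInt ((r : ZMod q) * x)).det_pos,
    merComp_toMer_of_mem (Gamma0 (N * q)) hc]

/-- **NORM COMPATIBILITY along `β`, `q ∣ N`** -/
theorem normAlong_beta_inclL_dvd (h : N ∣ N') (hqN : q ∣ N) (f : S18lib.FBar (N * q)) :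
    normAlong (heckeBetaBar Qb N' q) (V.inclL (Nat.mul_dvd_mul_right h q) f) =
      V.inclL h (normAlong (heckeBetaBar Qb N q) f) := by
  have hqN' : q ∣ N' := hqN.trans h
  set e : Qb →+* ℂ := qbarEmb with he
  apply (ΦBar N' e).injective
  apply (toMer (Gamma0 N')).injective
  rw [toMer_ΦBar_inclL e h]
  have hL := toMer_norm_beta hqN' e (V.inclL (Nat.mul_dvd_mul_right h q) f)
  have hR := toMer_norm_beta hqN e f
  refine hL.trans (Eq.trans ?_ hR.symm)
  refine Finset.prod_congr rfl fun x _ => ?_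
  rw [toMer_ΦBar_inclL e (Nat.mul_dvd_mul_right h q)]

end Fermat.Agent.S36lib.Xfer
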