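/-
S36lib / Xfer / QNewDvd  (helper1)

The `q`-new classes of `J₀(N q)` with `q ∣ N` (levels `q² ∣ N q`) and the level inclusions:
for `N' = N r`, `q ∤ r`, and the pull-back `ι^* : J₀(N q) → J₀(N' q)` along `FBar (N q) ⊆ FBar (N' q)`,

* `pushAlpha_pullLevel_dvd`, `pushBeta_pullLevel_dvd` : on TORSION classes `α'_* ι^* = ι₀^* α_*`,
  `β'_* ι^* = ι₀^* β_*`;
* `isQNew_pullLevel_dvd` : `ι^*` maps `q`-new torsion classes to `q`-new torsion classes.

(`pullLevel`, `pullLevel_smul`, `smul_eq_zero_of_pullLevel_eq_zero`, `levelDeg` are those of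
`LSc/Xfer/QNew.lean`; they hold for every `N ∣ N'`.)
-/
import Mathlib
import Fermat.Agent.S36lib.Xfer.NormCompatDvd
import Fermat.Agent.LSc.Xfer.QNew

set_option autoImplicit false
set_option linter.style.haveILetI false
set_option linter.unusedSectionVars false

noncomputable section

namespace Fermat.Agent.S36lib.Xfer

open AlgebraicCurve ModularCurve AlgebraicCurve.SemilinearAut
open Fermat.Agent.S29lib Fermat.Agent.S29lib.D Fermat.Agent.S18lib
open Fermat.Agent.S37lib.HeckeInst Fermat.Agent.LSb.Xfer Fermat.Agent.S35lib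
open Fermat.Agent.LSc.Xfer

local notation "Qb" => AlgebraicClosure ℚ
local notation "GQ" => (AlgebraicClosure ℚ ≃ₐ[ℚ] AlgebraicClosure ℚ)

variable {N N' q : ℕ} [NeZero N] [NeZero N'] [NeZero q] [Fact q.Prime]

/-- **`α'_* ι^* = ι₀^* α_*` on torsion classes, `q ∣ N`** -/
theorem pushAlpha_pullLevel_dvd (h : N ∣ N') (hqN : q ∣ N) (r : ℕ) (hN' : N' = N * r)
    (hr : Nat.Coprime r q) {n : ℕ} (hn : n ≠ 0)
    {x : JZero (N * q)} (hx : x ∈ Tors (N * q) n) :
    pushAlpha N' q (pullLevel (Nat.mul_dvd_mul_right h q) x) = pullLevel h (pushAlpha N q x) := by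
  haveI := hasPrincipalDivisors_FB N'
  haveI := hasPrincipalDivisors_FB (N * q)
  haveI := hasPrincipalDivisors_FB (N' * q)
  exact pic0_pushforward_pullback_eq_of_norm (heckeAlphaBar Qb N q) (heckeAlphaBar Qb N' q)
    (V.inclL h) (V.inclL (Nat.mul_dvd_mul_right h q)) (heckeAlphaBarIntegral N q)
    (heckeAlphaBarIntegral N' q) (xferInputs_inclL h).int
    (xferInputs_inclL (Nat.mul_dvd_mul_right h q)).int (finiteAlong_alpha N q)
    (normFormulaAlong_alpha N q) (finiteAlong_alpha N' q) (normFormulaAlong_alpha N' q)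
    (xferInputs_inclL h).fi (xferInputs_inclL (Nat.mul_dvd_mul_right h q)).fi
    (fun f => normAlong_alpha_inclL_dvd h hqN r hN' hr f) hn
    ((Submodule.mem_torsionBy_iff _ _).1 hx)

/-- **`β'_* ι^* = ι₀^* β_*` on torsion classes, `q ∣ N`** -/
theorem pushBeta_pullLevel_dvd (h : N ∣ N') (hqN : q ∣ N) {n : ℕ} (hn : n ≠ 0)
    {x : JZero (N * q)} (hx : x ∈ Tors (N * q) n) :
    pushBeta N' q (pullLevel (Nat.mul_dvd_mul_right h q) x) = pullLevel h (pushBeta N q x) := by
  haveI := hasPrincipalDivisors_FB N'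
  haveI := hasPrincipalDivisors_FB (N * q)
  haveI := hasPrincipalDivisors_FB (N' * q)
  exact pic0_pushforward_pullback_eq_of_norm (heckeBetaBar Qb N q) (heckeBetaBar Qb N' q)
    (V.inclL h) (V.inclL (Nat.mul_dvd_mul_right h q)) (heckeBetaBarIntegral N q)
    (heckeBetaBarIntegral N' q) (xferInputs_inclL h).int
    (xferInputs_inclL (Nat.mul_dvd_mul_right h q)).int (finiteAlong_beta N q)
    (normFormulaAlong_beta N q) (finiteAlong_beta N' q) (normFormulaAlong_beta N' q)
    (xferInputs_inclL h).fi (xferInputs_inclL (Nat.mul_dvd_mul_right h q)).fi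
    (fun f => normAlong_beta_inclL_dvd h hqN f) hn ((Submodule.mem_torsionBy_iff _ _).1 hx)

/-- **the pull-back of a `q`-new torsion class is `q`-new, `q ∣ N`** -/
theorem isQNew_pullLevel_dvd (h : N ∣ N') (hqN : q ∣ N) (r : ℕ) (hN' : N' = N * r)
    (hr : Nat.Coprime r q) {n : ℕ} (hn : n ≠ 0)
    {x : JZero (N * q)} (hx : x ∈ Tors (N * q) n) :
    IsQNew N q x → IsQNew N' q (pullLevel (Nat.mul_dvd_mul_right h q) x) := by
  rintro ⟨hα, hβ⟩
  exact ⟨by rw [pushAlpha_pullLevel_dvd h hqN r hN' hr hn hx, hα, map_zero],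
    by rw [pushBeta_pullLevel_dvd h hqN hn hx, hβ, map_zero]⟩

/-! ### The transfer of the `q`-new inertia bound -/

/-- **(C36)** at the level `N q`: up to a fixed nonzero integer `d`, a `p`-power torsion class of
`J₀(N q)` which is `q`-new and fixed by the inertia group of a valuation ring over `q` is zero. -/
def InertiaNewTors (N q p : ℕ) [NeZero N] [NeZero q] : Prop :=
  ∃ d : ℕ, d ≠ 0 ∧
    ∀ A : ValuationSubring Qb, A.LiesOverPrime q →
      ∀ (k : ℕ) (x : JZero (N * q)), x ∈ Tors (N * q) (p ^ k) → IsQNew N q x →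
        (∀ σ ∈ A.inertiaSubgroupIn ℚ, σ • x = x) → (d : ℤ) • x = 0

/-- **TRANSFER of (C36)** from the level `N' q = N r q` (`q ∤ r`) down to the level `N q`. -/
theorem inertiaNewTors_of_mul {p : ℕ} (hp : p.Prime) (h : N ∣ N') (hqN : q ∣ N) (r : ℕ)
    (hN' : N' = N * r) (hr : Nat.Coprime r q) (H : InertiaNewTors N' q p) :
    InertiaNewTors N q p := by
  obtain ⟨d, hd, H⟩ := H
  refine ⟨levelDeg (Nat.mul_dvd_mul_right h q) * d,
    mul_ne_zero (levelDeg_ne_zero _) hd, fun A hA k x hx hnew hfix => ?_⟩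
  have hn : p ^ k ≠ 0 := pow_ne_zero k hp.ne_zero
  have h1 := H A hA k (pullLevel (Nat.mul_dvd_mul_right h q) x) (pullLevel_mem_Tors _ hx)
    (isQNew_pullLevel_dvd h hqN r hN' hr hn hx hnew)
    (fun σ hσ => by rw [← pullLevel_smul, hfix σ hσ])
  rw [← map_zsmul] at h1
  have h2 := smul_eq_zero_of_pullLevel_eq_zero (Nat.mul_dvd_mul_right h q) h1
  rw [smul_smul] at h2
  push_cast
  exact h2

end Fermat.Agent.S36lib.Xfer
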